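/-
S18 moonshot (blueprint 14), package [GAUSS]-INT, part A (helper51): the abstract INTEGRALITY LEMMA.

Setting: fields `L ⊂ F`, a valuation subring `O` of `F` (the Gauss valuation `W`), an element
`x ∈ O`, and a finite family `b i ∈ O` which spans `F` over `L⟮x⟯` and is ORTHONORMAL:
`∑ c i * b i ∈ O → ∀ i, c i ∈ O` for `c i ∈ L⟮x⟯`.

* `isIntegral_comap` : every `y ∈ O` is integral over the valuation ring `O ∩ L⟮x⟯` of `L⟮x⟯`.
* `minpoly_coeff_mem` : hence the minimal polynomial of `y` over `L⟮x⟯` has coefficients in `O`.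
* `minpoly_coeff_mem_adjoin` : if `y` is integral over `L[x]` (x transcendental) the coefficients
  lie in `L[x]`.
* `isIntegral_red` : if `red : O →+* Fbar` sends `L[x] ∩ O` into `k[xbar]`, then `red y` is integral
  over `k[xbar]`.

Mathlib only.
-/
import Mathlib

set_option autoImplicit false

open Polynomial IntermediateField

namespace Fermat.Agent.S18.GaussInt51

variable {L F : Type*} [Field L] [Field F] [Algebra L F]

/-- Orthonormal spanning family of `F` over an intermediate field `K`, with respect to the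
valuation subring `O` of `F`. -/
structure Ortho (O : ValuationSubring F) (K : IntermediateField L F) {ι : Type*} [Fintype ι]
    (b : ι → F) : Prop where
  mem : ∀ i, b i ∈ O
  span : ∀ z : F, ∃ c : ι → K, z = ∑ i, (c i : F) * b i
  orth : ∀ c : ι → K, (∑ i, (c i : F) * b i) ∈ O → ∀ i, (c i : F) ∈ O

section Integral

variable (O : ValuationSubring F) (K : IntermediateField L F)

/-- The valuation subring `O ∩ K` of `K`. -/
abbrev comapK : ValuationSubring K := O.comap (algebraMap K F)

/-- `F` as an algebra over `O ∩ K`. -/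
@[reducible] def algComapK : Algebra (comapK O K) F :=
  ((algebraMap K F).comp (comapK O K).subtype).toAlgebra

attribute [local instance] algComapK

instance : IsScalarTower (comapK O K) K F := IsScalarTower.of_algebraMap_eq fun _ => rfl

theorem algebraMap_comapK_apply (c : comapK O K) : algebraMap (comapK O K) F c = ((c : K) : F) :=
  rfl

theorem coe_mem_of_comapK (c : comapK O K) : ((c : K) : F) ∈ O := c.2

variable {O K}

/-- Every element of `O` is integral over `O ∩ K`, if there is an orthonormal spanning family. -/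
theorem isIntegral_comap {ι : Type*} [Fintype ι] {b : ι → F} (hb : Ortho O K b) {y : F}
    (hy : y ∈ O) : IsIntegral (comapK O K) y := by
  classical
  -- the lattice spanned by the family
  set N : Submodule (comapK O K) F := Submodule.span (comapK O K) (Set.range b) with hN
  have hFG : N.FG := Submodule.fg_span (Set.finite_range b)
  have hne : N ≠ ⊥ := by
    intro hbot
    obtain ⟨c, hc⟩ := hb.span 1
    have hall : ∀ i, b i = 0 := by
      intro i
      have : b i ∈ N := Submodule.subset_span ⟨i, rfl⟩
      rw [hbot] at this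
      simpa using this
    rw [Finset.sum_eq_zero (fun i _ => by rw [hall i, mul_zero])] at hc
    exact one_ne_zero hc
  refine isIntegral_of_smul_mem_submodule N hne hFG y ?_
  intro n hn
  induction hn using Submodule.span_induction with
  | mem z hz =>
    obtain ⟨j, rfl⟩ := hz
    obtain ⟨c, hc⟩ := hb.span (y * b j)
    have hO : (∑ i, (c i : F) * b i) ∈ O := hc ▸ O.mul_mem _ _ hy (hb.mem j)
    have hci := hb.orth c hO
    rw [smul_eq_mul, hc]
    refine Submodule.sum_mem _ fun i _ => ?_
    have : (c i : F) * b i = (⟨c i, hci i⟩ : comapK O K) • b i := rfl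
    rw [this]
    exact Submodule.smul_mem _ _ (Submodule.subset_span ⟨i, rfl⟩)
  | zero => simp
  | add u v _ _ hu hv => rw [smul_add]; exact N.add_mem hu hv
  | smul r u _ hu =>
    rw [smul_comm]
    exact N.smul_mem r hu

/-- The coefficients of the minimal polynomial over `K` of an element of `O` lie in `O`. -/
theorem minpoly_coeff_mem {ι : Type*} [Fintype ι] {b : ι → F} (hb : Ortho O K b) {y : F}
    (hy : y ∈ O) (n : ℕ) : (((minpoly K y).coeff n : K) : F) ∈ O := by
  have hint := isIntegral_comap hb hy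
  rw [minpoly.isIntegrallyClosed_eq_field_fractions' K hint, coeff_map]
  exact coe_mem_of_comapK O K _

end Integral

section Adjoin

open IntermediateField.algebraAdjoinAdjoin

variable {x : F}

/-- `L[x]` is a principal ideal domain for transcendental `x`. -/
theorem isPrincipalIdealRing_adjoin (htr : Transcendental L x) :
    IsPrincipalIdealRing (Algebra.adjoin L {x}) :=
  IsPrincipalIdealRing.of_surjective (Polynomial.algEquivOfTranscendental L x htr : L[X] →+* _)
    (Polynomial.algEquivOfTranscendental L x htr).surjective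

/-- The coefficients of the minimal polynomial over `L(x)` of an element integral over `L[x]`
lie in `L[x]`. -/
theorem minpoly_coeff_mem_adjoin (htr : Transcendental L x) {y : F}
    (hy : IsIntegral (Algebra.adjoin L {x}) y) (n : ℕ) :
    (((minpoly L⟮x⟯ y).coeff n : L⟮x⟯) : F) ∈ Algebra.adjoin L {x} := by
  have := isPrincipalIdealRing_adjoin htr
  rw [minpoly.isIntegrallyClosed_eq_field_fractions' L⟮x⟯ hy, coeff_map]
  exact ((minpoly (Algebra.adjoin L {x}) y).coeff n).2

variable {k Fbar : Type*} [Field k] [Field Fbar] [Algebra k Fbar]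

/-- **Integrality lemma, abstract form.**  If `red : O →+* Fbar` maps `L[x] ∩ O` into `k[xbar]`,
then it maps elements of `O` integral over `L[x]` to elements integral over `k[xbar]`. -/
theorem isIntegral_red {O : ValuationSubring F} (hx : x ∈ O) (htr : Transcendental L x)
    {ι : Type*} [Fintype ι] {b : ι → F} (hb : Ortho O L⟮x⟯ b) (red : O →+* Fbar)
    (hg : ∀ z (_ : z ∈ Algebra.adjoin L {x}) (hzO : z ∈ O),
      red ⟨z, hzO⟩ ∈ Algebra.adjoin k {red ⟨x, hx⟩})
    {y : F} (hyO : y ∈ O) (hy : IsIntegral (Algebra.adjoin L {x}) y) :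
    IsIntegral (Algebra.adjoin k {red ⟨x, hx⟩}) (red ⟨y, hyO⟩) := by
  classical
  set T : Subalgebra k Fbar := Algebra.adjoin k {red ⟨x, hx⟩} with hT
  -- the subring of `O` of elements reducing into `T`
  set S : Subring O := T.toSubring.comap red with hS
  have hyK : IsIntegral L⟮x⟯ y := hy.tower_top
  set μ := minpoly L⟮x⟯ y with hμ
  have hmonic : μ.Monic := minpoly.monic hyK
  set f : S →+* F := (O.subtype).comp S.subtype with hf
  have hlift : μ.map (algebraMap L⟮x⟯ F) ∈ Polynomial.lifts f := by
    rw [Polynomial.lifts_iff_coeff_lifts]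
    intro n
    rw [coeff_map]
    have hO : ((μ.coeff n : L⟮x⟯) : F) ∈ O := minpoly_coeff_mem hb hyO n
    have hP : ((μ.coeff n : L⟮x⟯) : F) ∈ Algebra.adjoin L {x} := minpoly_coeff_mem_adjoin htr hy n
    exact ⟨⟨⟨_, hO⟩, hg _ hP hO⟩, rfl⟩
  obtain ⟨q, hq, -, hqm⟩ := Polynomial.lifts_and_degree_eq_and_monic hlift (hmonic.map _)
  have hintS : IsIntegral S (⟨y, hyO⟩ : O) := by
    refine ⟨q, hqm, ?_⟩
    have hinj : Function.Injective O.subtype := Subtype.val_injective
    apply hinj
    rw [Polynomial.hom_eval₂, map_zero]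
    have : (O.subtype).comp (algebraMap S O) = f := rfl
    rw [this, ← Polynomial.eval_map, hq, Polynomial.eval_map, ← Polynomial.aeval_def]
    exact minpoly.aeval _ _
  set φ : S →+* T := RingHom.codRestrict (red.comp S.subtype) T (fun z => z.2) with hφ
  exact IsIntegral.map_of_comp_eq φ red (by ext z; rfl) hintS

end Adjoin

section Gauss

variable (L) in
/-- Coefficientwise Gauss property of `u` with respect to `O`: a polynomial expression in `u`
with coefficients in `L` lies in `O` only if all its coefficients do. -/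
def GaussProp (O : ValuationSubring F) (u : F) : Prop :=
  ∀ p : L[X], aeval u p ∈ O → ∀ i, algebraMap L F (p.coeff i) ∈ O

variable {O : ValuationSubring F} {x : F}

theorem GaussProp.inv (h : GaussProp L O x) (hx : x ∈ O) (hx0 : x ≠ 0) : GaussProp L O x⁻¹ := by
  intro p hp j
  set N := p.natDegree with hN
  let _ : Invertible x := invertibleOfNonzero hx0
  have key : aeval x⁻¹ p * x ^ N = aeval x (reflect N p) := by
    have h1 := eval₂_reflect_mul_pow (algebraMap L F) x N (reflect N p)
      (natDegree_reflect_le.trans (by simp [hN]))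
    rw [reflect_reflect, invOf_eq_inv] at h1
    simpa [aeval_def] using h1
  have hO : aeval x (reflect N p) ∈ O := by
    rw [← key]
    exact O.mul_mem _ _ hp (O.pow_mem hx N)
  rcases le_or_gt j N with hj | hj
  · have := h _ hO (N - j)
    rwa [coeff_reflect, revAt_le (Nat.sub_le N j), Nat.sub_sub_self hj] at this
  · rw [coeff_eq_zero_of_natDegree_lt hj, map_zero]
    exact O.zero_mem

variable {k Fbar : Type*} [Field k] [Field Fbar] [Algebra k Fbar]

/-- From the coefficientwise Gauss property: `red` maps `L[u] ∩ O` into `k[ubar]`, provided it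
maps constants to constants. -/
theorem red_mem_adjoin {u : F} (hgc : GaussProp L O u) (hu : u ∈ O) (red : O →+* Fbar)
    (hconst : ∀ (c : L) (hc : algebraMap L F c ∈ O), red ⟨_, hc⟩ ∈ (algebraMap k Fbar).range)
    (z : F) (hzP : z ∈ Algebra.adjoin L {u}) (hzO : z ∈ O) :
    red ⟨z, hzO⟩ ∈ Algebra.adjoin k {red ⟨u, hu⟩} := by
  obtain ⟨p, rfl⟩ := Algebra.adjoin_mem_exists_aeval _ _ hzP
  have hc := hgc p hzO
  have hsum : (⟨aeval u p, hzO⟩ : O) =
      ∑ i ∈ Finset.range (p.natDegree + 1), (⟨_, hc i⟩ : O) * (⟨u, hu⟩ : O) ^ i := by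
    apply Subtype.ext
    rw [AddSubmonoidClass.coe_finsetSum]
    simp only [MulMemClass.coe_mul, SubmonoidClass.coe_pow]
    rw [aeval_eq_sum_range]
    simp only [Algebra.smul_def]
  rw [hsum, map_sum]
  refine Subalgebra.sum_mem _ fun i _ => ?_
  rw [map_mul, map_pow]
  refine Subalgebra.mul_mem _ ?_ (Subalgebra.pow_mem _ (Algebra.self_mem_adjoin_singleton _ _) _)
  obtain ⟨a, ha⟩ := hconst _ (hc i)
  rw [← ha]
  exact Subalgebra.algebraMap_mem _ a

theorem adjoin_simple_inv (x : F) : L⟮x⁻¹⟯ = L⟮x⟯ := by
  apply le_antisymm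
  · rw [adjoin_simple_le_iff]
    exact inv_mem (mem_adjoin_simple_self L x)
  · rw [adjoin_simple_le_iff]
    have : x⁻¹ ∈ L⟮x⁻¹⟯ := mem_adjoin_simple_self L x⁻¹
    simpa using inv_mem this

theorem Ortho.inv {ι : Type*} [Fintype ι] {b : ι → F} (hb : Ortho O L⟮x⟯ b) :
    Ortho O L⟮x⁻¹⟯ b := by
  rw [adjoin_simple_inv]
  exact hb

theorem transcendental_inv (htr : Transcendental L x) : Transcendental L x⁻¹ := fun h =>
  htr (IsAlgebraic.inv_iff.mp h)

/-- **Integrality lemma, abstract form, both charts.**  -/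
theorem isIntegral_red_pair (hx : x ∈ O) (hxi : x⁻¹ ∈ O) (htr : Transcendental L x)
    {ι : Type*} [Fintype ι] {b : ι → F} (hb : Ortho O L⟮x⟯ b) (red : O →+* Fbar)
    (hgc : GaussProp L O x)
    (hconst : ∀ (c : L) (hc : algebraMap L F c ∈ O), red ⟨_, hc⟩ ∈ (algebraMap k Fbar).range)
    {y : F} (hyO : y ∈ O) :
    (IsIntegral (Algebra.adjoin L {x}) y →
      IsIntegral (Algebra.adjoin k {red ⟨x, hx⟩}) (red ⟨y, hyO⟩)) ∧
    (IsIntegral (Algebra.adjoin L {x⁻¹}) y →
      IsIntegral (Algebra.adjoin k {red ⟨x⁻¹, hxi⟩}) (red ⟨y, hyO⟩)) := by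
  have hx0 : x ≠ 0 := fun h => htr (h ▸ isAlgebraic_zero)
  refine ⟨fun hy => ?_, fun hy => ?_⟩
  · exact isIntegral_red hx htr hb red (red_mem_adjoin hgc hx red hconst) hyO hy
  · exact isIntegral_red hxi (transcendental_inv htr) hb.inv red
      (red_mem_adjoin (hgc.inv hx hx0) hxi red hconst) hyO hy

end Gauss

end Fermat.Agent.S18.GaussInt51
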