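/-
S18 moonshot (blueprint 14), package [GAUSS]-INT, part B (helper51): the integrality lemma in terms
of the Prelude `Place` API.

* `isIntegral_adjoin_of_forall_place` : (char-0 / separable side) an element which is regular at
  all places where `x` is regular is integral over `L[x]`.
* `mem_place_of_isIntegral` : (any characteristic) an element integral over `k[u]` is regular at
  every place where `u` is regular.
-/
import Mathlib
import Fermat.Prelude.Def_AlgebraicCurve_DivisorClassGroup
import Fermat.Prelude.Def_AlgebraicCurve_Repartitions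
import Fermat.Agent.S18.GaussInt51.Abstract

set_option autoImplicit false

open Polynomial IntermediateField AlgebraicCurve IsDedekindDomain

namespace Fermat.Agent.S18.GaussInt51

section Easy

variable {k Fbar : Type*} [Field k] [Field Fbar] [Algebra k Fbar]

/-- An element integral over `k[u]` is regular at every place where `u` is regular. -/
theorem mem_place_of_isIntegral {u z : Fbar} (hz : IsIntegral (Algebra.adjoin k {u}) z)
    (Q : Place k Fbar) (hu : u ∈ Q.toValuationSubring) : z ∈ Q.toValuationSubring := by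
  -- `k[u] ⊆ O_Q`
  have hle' : ∀ t ∈ Algebra.adjoin k {u}, t ∈ Q.toValuationSubring := by
    intro t ht
    induction ht using Algebra.adjoin_induction with
    | mem t ht => rw [Set.mem_singleton_iff] at ht; rw [ht]; exact hu
    | algebraMap c => exact Q.algebraMap_mem' c
    | add a b _ _ ha hb => exact Q.toValuationSubring.add_mem _ _ ha hb
    | mul a b _ _ ha hb => exact Q.toValuationSubring.mul_mem _ _ ha hb
  have hle : (Algebra.adjoin k {u}).toSubring ≤ Q.toValuationSubring.toSubring := hle'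
  obtain ⟨q, hq, hq0⟩ := hz
  -- `z` is integral over `O_Q`
  have hint : IsIntegral Q.toValuationSubring z := by
    refine ⟨q.map (Subring.inclusion hle : (Algebra.adjoin k {u}).toSubring →+* _), hq.map _, ?_⟩
    rw [eval₂_map]
    exact hq0
  have := (IsIntegrallyClosed.isIntegral_iff (R := Q.toValuationSubring) (K := Fbar)).mp hint
  obtain ⟨t, rfl⟩ := this
  exact t.2

end Easy

section Dedekind

open IntermediateField.algebraAdjoinAdjoin

variable {L F : Type*} [Field L] [Field F] [Algebra L F]

/-- An element of `F` which is regular at every place of `F/L` at which `x` is regular is integral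
over `L[x]` (`F` finite separable over `L(x)`, `x` transcendental). -/
theorem isIntegral_adjoin_of_forall_place {x : F} (htr : Transcendental L x)
    [FiniteDimensional L⟮x⟯ F] [Algebra.IsSeparable L⟮x⟯ F] {y : F}
    (h : ∀ P : Place L F, x ∈ P.toValuationSubring → y ∈ P.toValuationSubring) :
    IsIntegral (Algebra.adjoin L {x}) y := by
  have hpid := isPrincipalIdealRing_adjoin htr
  set P₀ := Algebra.adjoin L {x} with hP₀
  set R := integralClosure P₀ F with hR
  have : IsDedekindDomain R := integralClosure.isDedekindDomain P₀ L⟮x⟯ F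
  have : IsFractionRing R F := integralClosure.isFractionRing_of_finite_extension L⟮x⟯ F
  let _ : Algebra L R := ((algebraMap P₀ R).comp (algebraMap L P₀)).toAlgebra
  have : IsScalarTower L R F := IsScalarTower.of_algebraMap_eq fun _ => rfl
  have hval : ∀ w : HeightOneSpectrum R, w.valuation F y ≤ 1 := by
    intro w
    have hxw : x ∈ (Place.ofHeightOneSpectrum (K := L) w).toValuationSubring := by
      show w.valuation F x ≤ 1
      have hxR : x ∈ R :=
        Subalgebra.algebraMap_mem R (⟨x, Algebra.self_mem_adjoin_singleton L x⟩ : P₀)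
      exact w.valuation_le_one (⟨x, hxR⟩ : R)
    exact h _ hxw
  obtain ⟨r, hr⟩ := HeightOneSpectrum.mem_integers_of_valuation_le_one F y hval
  rw [← hr]
  exact r.2

end Dedekind

section Ord

variable {K F : Type*} [Field K] [Field F] [Algebra K F]

/-- Membership in the valuation ring of a place in terms of `ord`. -/
theorem mem_place_iff_ord_nonneg (v : Place K F) {f : F} (hf : f ≠ 0) :
    f ∈ v.toValuationSubring ↔ 0 ≤ v.ord f := by
  constructor
  · intro h
    exact ((v.adicValuation_le_one_iff).mp (v.adicValuation_le_one_of_mem h)).resolve_left hf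
  · intro h
    obtain ⟨π, hπ⟩ := IsDiscreteValuationRing.exists_irreducible v.toValuationSubring
    obtain ⟨u, hu⟩ := v.exists_unit_mul_zpow hf hπ
    obtain ⟨n, hn⟩ := Int.eq_ofNat_of_zero_le h
    rw [hu, hn, zpow_natCast]
    exact v.toValuationSubring.mul_mem _ _ (u : v.toValuationSubring).2
      (v.toValuationSubring.pow_mem π.2 n)

theorem ord_pow (v : Place K F) (f : F) (n : ℕ) : v.ord (f ^ n) = n * v.ord f := by
  rw [← zpow_natCast, v.ord_zpow]

/-- The pole bound `a·(x)_∞ + c·(x)_0` at a place where `x` has order `n`. -/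
def bound (a c : ℕ) (n : ℤ) : ℤ := a * max 0 (-n) + c * max 0 n

theorem bound_nonneg (a c : ℕ) (n : ℤ) : 0 ≤ bound a c n := by
  unfold bound
  positivity

theorem bound_of_nonneg (a c : ℕ) {n : ℤ} (hn : 0 ≤ n) : bound a c n = c * n := by
  unfold bound
  rw [max_eq_right hn, max_eq_left (by omega)]
  ring

theorem bound_of_nonpos (a c : ℕ) {n : ℤ} (hn : n ≤ 0) : bound a c n = a * (-n) := by
  unfold bound
  rw [max_eq_left hn, max_eq_right (by omega)]
  ring

end Ord

end Fermat.Agent.S18.GaussInt51

namespace Fermat.Agent.S18.GaussInt51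

section Main

open IntermediateField.algebraAdjoinAdjoin

variable {L F k Fbar : Type*} [Field L] [Field F] [Algebra L F] [Field k] [Field Fbar]
  [Algebra k Fbar]

/-- **Integrality lemma, place form.**  `F/L` a function field (finite separable over `L(x)`),
`O` a valuation subring of `F` in which `x` is a unit, with an orthonormal spanning family over
`L(x)` and the Gauss property; `red : O →+* Fbar` mapping constants to constants.
If `y ∈ O` lies in `L(a·(x)_∞ + c·(x)_0)` then `red y` lies in `Lbar(a·(xbar)_∞ + c·(xbar)_0)`. -/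
theorem ord_red_ge {O : ValuationSubring F} {x : F} (hx : x ∈ O) (hxi : x⁻¹ ∈ O)
    (htr : Transcendental L x) [FiniteDimensional L⟮x⟯ F] [Algebra.IsSeparable L⟮x⟯ F]
    {ι : Type*} [Fintype ι] {b : ι → F} (hb : Ortho O L⟮x⟯ b) (red : O →+* Fbar)
    (hgc : GaussProp L O x)
    (hconst : ∀ (c : L) (hc : algebraMap L F c ∈ O), red ⟨_, hc⟩ ∈ (algebraMap k Fbar).range)
    (a c : ℕ) {y : F} (hyO : y ∈ O)
    (hy : ∀ P : Place L F, -(bound a c (P.ord x)) ≤ P.ord y) (Q : Place k Fbar) :
    -(bound a c (Q.ord (red ⟨x, hx⟩))) ≤ Q.ord (red ⟨y, hyO⟩) := by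
  have hx0 : x ≠ 0 := fun h => htr (h ▸ isAlgebraic_zero)
  set xb := red ⟨x, hx⟩ with hxb
  set xib := red ⟨x⁻¹, hxi⟩ with hxib
  have hmul : xb * xib = 1 := by
    rw [hxb, hxib, ← map_mul]
    have : (⟨x, hx⟩ : O) * ⟨x⁻¹, hxi⟩ = 1 := Subtype.ext (mul_inv_cancel₀ hx0)
    rw [this, map_one]
  have hxb0 : xb ≠ 0 := left_ne_zero_of_mul_eq_one hmul
  have hxib_eq : xib = xb⁻¹ := eq_inv_of_mul_eq_one_right hmul
  by_cases hyb : red ⟨y, hyO⟩ = 0
  · rw [hyb, Q.ord_zero]
    have := bound_nonneg a c (Q.ord xb)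
    omega
  have hy0 : y ≠ 0 := by
    rintro rfl
    apply hyb
    have : (⟨0, hyO⟩ : O) = 0 := rfl
    rw [this, map_zero]
  have hpair := fun {z : F} (hz : z ∈ O) =>
    isIntegral_red_pair (k := k) hx hxi htr hb red hgc hconst hz
  rcases le_total 0 (Q.ord xb) with hn | hn
  · -- chart `x`
    have hy1O : y * x ^ c ∈ O := O.mul_mem _ _ hyO (O.pow_mem hx c)
    have hint1 : IsIntegral (Algebra.adjoin L {x}) (y * x ^ c) := by
      refine isIntegral_adjoin_of_forall_place htr fun P hxP => ?_
      have hPx : 0 ≤ P.ord x := (mem_place_iff_ord_nonneg P hx0).mp hxP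
      rw [mem_place_iff_ord_nonneg P (mul_ne_zero hy0 (pow_ne_zero c hx0)),
        P.ord_mul hy0 (pow_ne_zero c hx0), ord_pow]
      have := hy P
      rw [bound_of_nonneg a c hPx] at this
      omega
    have hred1 := (hpair hy1O).1 hint1
    have hsplit : red ⟨y * x ^ c, hy1O⟩ = red ⟨y, hyO⟩ * xb ^ c := by
      rw [hxb, ← map_pow, ← map_mul]
      rfl
    rw [hsplit] at hred1
    have hmem := mem_place_of_isIntegral hred1 Q ((mem_place_iff_ord_nonneg Q hxb0).mpr hn)
    rw [mem_place_iff_ord_nonneg Q (mul_ne_zero hyb (pow_ne_zero c hxb0)),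
      Q.ord_mul hyb (pow_ne_zero c hxb0), ord_pow] at hmem
    rw [bound_of_nonneg a c hn]
    omega
  · -- chart `x⁻¹`
    have hxi0 : x⁻¹ ≠ 0 := inv_ne_zero hx0
    have hy2O : y * x⁻¹ ^ a ∈ O := O.mul_mem _ _ hyO (O.pow_mem hxi a)
    have e := adjoin_simple_inv (L := L) x
    have i1 : FiniteDimensional L⟮x⁻¹⟯ F := by rw [e]; infer_instance
    have i2 : Algebra.IsSeparable L⟮x⁻¹⟯ F := by rw [e]; infer_instance
    have hint2 : IsIntegral (Algebra.adjoin L {x⁻¹}) (y * x⁻¹ ^ a) := by
      refine isIntegral_adjoin_of_forall_place (transcendental_inv htr) fun P hxP => ?_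
      have hPx : 0 ≤ P.ord x⁻¹ := (mem_place_iff_ord_nonneg P hxi0).mp hxP
      rw [P.ord_inv] at hPx
      rw [mem_place_iff_ord_nonneg P (mul_ne_zero hy0 (pow_ne_zero a hxi0)),
        P.ord_mul hy0 (pow_ne_zero a hxi0), ord_pow, P.ord_inv]
      have := hy P
      rw [bound_of_nonpos a c (by omega : P.ord x ≤ 0)] at this
      have h2 : (a : ℤ) * -P.ord x = -((a : ℤ) * P.ord x) := by ring
      omega
    have hred2 := (hpair hy2O).2 hint2
    have hsplit : red ⟨y * x⁻¹ ^ a, hy2O⟩ = red ⟨y, hyO⟩ * xib ^ a := by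
      rw [hxib, ← map_pow, ← map_mul]
      rfl
    rw [hsplit] at hred2
    have hxib0 : xib ≠ 0 := right_ne_zero_of_mul_eq_one hmul
    have hQxi : 0 ≤ Q.ord xib := by rw [hxib_eq, Q.ord_inv]; omega
    have hmem := mem_place_of_isIntegral hred2 Q ((mem_place_iff_ord_nonneg Q hxib0).mpr hQxi)
    rw [mem_place_iff_ord_nonneg Q (mul_ne_zero hyb (pow_ne_zero a hxib0)),
      Q.ord_mul hyb (pow_ne_zero a hxib0), ord_pow, hxib_eq, Q.ord_inv] at hmem
    rw [bound_of_nonpos a c hn]
    have h2 : (a : ℤ) * -Q.ord xb = -((a : ℤ) * Q.ord xb) := by ring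
    omega

end Main

end Fermat.Agent.S18.GaussInt51

namespace Fermat.Agent.S18.GaussInt51

section RR

open IntermediateField.algebraAdjoinAdjoin

variable {L F k Fbar : Type*} [Field L] [Field F] [Algebra L F] [Field k] [Field Fbar]
  [Algebra k Fbar]

/-- **Integrality lemma, Riemann–Roch space form.**  If the divisors `D` on `F/L` and `Dbar` on
`Fbar/k` are `a·(x)_∞ + c·(x)_0` resp. `a·(xbar)_∞ + c·(xbar)_0`, then reduction maps
`L(D) ∩ O` into `L(Dbar)`. -/
theorem red_mem_riemannRochSpace {O : ValuationSubring F} {x : F} (hx : x ∈ O) (hxi : x⁻¹ ∈ O)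
    (htr : Transcendental L x) [FiniteDimensional L⟮x⟯ F] [Algebra.IsSeparable L⟮x⟯ F]
    {ι : Type*} [Fintype ι] {b : ι → F} (hb : Ortho O L⟮x⟯ b) (red : O →+* Fbar)
    (hgc : GaussProp L O x)
    (hconst : ∀ (c : L) (hc : algebraMap L F c ∈ O), red ⟨_, hc⟩ ∈ (algebraMap k Fbar).range)
    (a c : ℕ) (D : Divisor L F) (Dbar : Divisor k Fbar)
    (hD : ∀ P : Place L F, D P = bound a c (P.ord x))
    (hDbar : ∀ Q : Place k Fbar, Dbar Q = bound a c (Q.ord (red ⟨x, hx⟩)))
    {y : F} (hyO : y ∈ O) (hy : y ∈ riemannRochSpace D) :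
    red ⟨y, hyO⟩ ∈ riemannRochSpace Dbar := by
  rw [mem_riemannRochSpace_iff] at hy ⊢
  intro Q
  right
  rw [hDbar Q]
  refine ord_red_ge hx hxi htr hb red hgc hconst a c hyO (fun P => ?_) Q
  rcases hy P with rfl | h
  · rw [P.ord_zero]
    have := bound_nonneg a c (P.ord x)
    omega
  · rwa [hD P] at h

theorem bound_mul (m a c : ℕ) (n : ℤ) : bound (m * a) (m * c) n = m * bound a c n := by
  unfold bound
  push_cast
  ring

/-- Extraction of `m`-th roots in Riemann–Roch conditions (divisors are torsion free). -/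
theorem neg_le_ord_of_pow {K' F' : Type*} [Field K'] [Field F'] [Algebra K' F'] (Q : Place K' F')
    {z : F'} {m : ℕ} (hm : 0 < m) {B : ℤ} (h : -((m : ℤ) * B) ≤ Q.ord (z ^ m)) :
    -B ≤ Q.ord z := by
  rw [ord_pow] at h
  have hm' : (0 : ℤ) < m := by exact_mod_cast hm
  nlinarith

end RR

end Fermat.Agent.S18.GaussInt51
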